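/-
S55 (Poitou–Tate), layer G, block G-EXIST (helper121), leaf EX-DESC — helper964.

  `theorem descentTop : Fermat.Agent.S55.G.Exist121.DescentTopSpec`   (UNCONDITIONAL)

Galois descent `C_S(K) ≃ C_S(L)^G` for `L/K` Galois with group `G`, unramified outside `S ≠ ∅`.
The map is helper773's base change `cBase S K L`; injectivity and the description of the image
are `DescH773.cBase_injective`, `DescH773.mem_range_cBase_iff`; trivial inertia outside `S`
gives ramification index `1` (`DescH773.eAt_eq_one_of_inertia`).
-/
import Fermat.Agent.S55.G.DescH773.Main
import Fermat.Agent.S55.G.Exist121.Spec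

set_option autoImplicit false
set_option linter.unusedSectionVars false
set_option linter.style.haveILetI false

open scoped NumberField TensorProduct Pointwise
open IsDedekindDomain

noncomputable section

namespace Fermat.Agent.S55.G.Exist121.H964

open Fermat.Agent.S55.G Fermat.Agent.S55.G.DescH773

/-- **EX-DESC** (unconditional): descent to the base field. -/
theorem descentTop : DescentTopSpec := by
  intro S G K L _ _ _ _ _ _ _ _ _ hS hur
  haveI : FaithfulSMul G L := IsGaloisGroup.faithful K
  have he : ∀ w : PrimeOut S L, eAt K w.1 = 1 := by
    intro w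
    refine eAt_eq_one_of_inertia G K w.1 fun g hg => ?_
    have h1 : ∀ x : L, g • x = x := hur w.1 w.2 g hg
    exact eq_of_smul_eq_smul (α := L) fun x => by rw [h1 x, one_smul]
  refine ⟨cBase S K L, cBase_injective S G K L hS, ?_, ?_⟩
  · intro c
    have := mem_range_cBase_iff S G K L hS he c
    constructor
    · intro h
      obtain ⟨c', hc'⟩ := this.2 h
      exact ⟨c', hc'⟩
    · rintro ⟨c', rfl⟩ g
      exact cRepr_cBase S G K L g c'
  · intro y
    change cBase S K L (Submodule.Quotient.mk (y, 0)) = Submodule.Quotient.mk (jMap S K L y, 0)
    rw [cBase_mk]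
    congr 1
    exact Prod.ext rfl (map_zero (divBase S K L))

/-- The conditional form announced in `coord/S55-G-EXIST.md` (the hypothesis is not needed). -/
theorem descentTop_of (_h : DescentSpec) : DescentTopSpec := descentTop

end Fermat.Agent.S55.G.Exist121.H964
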