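/-
S55 (Poitou–Tate), layer G, block G-EXIST (helper121), leaf EX-REC — helper964.

  `theorem recip_of : G.PClassModuleSpec → T.ClassModuleOfCyclicSpec → T.TateReciprocitySpec →
      RecipSpec`

Reciprocity isomorphism `G^ab ≃ C_S(L)^G / N_G C_S(L)` for `p`-groups: the class module property
(`PClassModuleSpec` + `T.ClassModuleOfCyclicSpec`) feeds Tate's reciprocity
(`T.TateReciprocitySpec`) at `H = ⊤`, and everything is transported along `↥⊤ ≃* G`.
-/
import Fermat.Agent.S55.G.Exist121.Spec
import Fermat.Agent.S55.T.Spec2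

set_option autoImplicit false
set_option linter.unusedSectionVars false
set_option linter.style.haveILetI false

open CategoryTheory groupCohomology

noncomputable section

namespace Fermat.Agent.S55.G.Exist121.H964

open Fermat.Agent.S55 Fermat.Agent.S55.G

section Generic

variable {k G : Type} [CommRing k] [Group G] [Fintype G]

/-- The norm of the restriction to `⊤` is the norm. -/
lemma norm_resSub_top [Fintype (⊤ : Subgroup G)] (A : Rep.{0} k G) (x : A.V) :
    (T.resSub A ⊤).ρ.norm x = A.ρ.norm x := by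
  rw [Representation.norm, Representation.norm, LinearMap.sum_apply, LinearMap.sum_apply]
  exact Fintype.sum_equiv (Subgroup.topEquiv (G := G)).toEquiv _ _ (fun _ => rfl)

/-- The invariants of the restriction to `⊤` are the invariants. -/
lemma mem_invariants_resSub_top (A : Rep.{0} k G) (x : A.V) :
    x ∈ (T.resSub A ⊤).ρ.invariants ↔ x ∈ A.ρ.invariants := by
  constructor
  · intro h g
    exact h ⟨g, Subgroup.mem_top g⟩
  · intro h g
    exact h (g : G)

/-- `Ĥ⁰(⊤, A) ≃ Ĥ⁰(G, A)`. -/
def hat0TopEquiv [Fintype (⊤ : Subgroup G)] (A : Rep.{0} k G) :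
    T.hat0 (T.resSub A ⊤) ≃ₗ[k] T.hat0 A :=
  Submodule.Quotient.equiv _ _
    (LinearEquiv.ofEq (T.resSub A ⊤).ρ.invariants A.ρ.invariants
      (Submodule.ext (mem_invariants_resSub_top A)))
    (by
      ext ⟨x, hx⟩
      simp only [Submodule.mem_map, Submodule.mem_comap, LinearMap.mem_range,
        Submodule.subtype_apply]
      constructor
      · rintro ⟨⟨y, hy⟩, ⟨z, hz⟩, hyx⟩
        refine ⟨z, ?_⟩
        have hyx' : y = x := congrArg Subtype.val hyx
        have hz' : (T.resSub A ⊤).ρ.norm z = y := hz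
        rw [← hyx', ← hz']
        exact (norm_resSub_top A z).symm
      · rintro ⟨z, hz⟩
        refine ⟨⟨x, (mem_invariants_resSub_top A x).2 hx⟩, ⟨z, ?_⟩, rfl⟩
        show (T.resSub A ⊤).ρ.norm z = x
        rw [← hz]
        exact norm_resSub_top A z)

end Generic

/-- **EX-REC**: the reciprocity isomorphism for `p`-groups, from the class module property and
Tate's theorem. -/
theorem recip_of (hCM : PClassModuleSpec) (hT : T.ClassModuleOfCyclicSpec)
    (hR : T.TateReciprocitySpec) : RecipSpec := by
  intro p hp hp2 S G L _ _ _ _ _ _ hpS hG hur hζ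
  have h := hCM p hp2 S G L hpS hG hur hζ
  obtain ⟨⟨γ, hγ⟩, -⟩ := hT G (CRep S G L) (fun H => (h H).1) (fun H => (h H).2)
  letI : Fintype (⊤ : Subgroup G) := Fintype.ofEquiv G Subgroup.topEquiv.symm.toEquiv
  obtain ⟨e⟩ := hR G (CRep S G L) γ hγ ⊤
  have e1 : Additive (Abelianization G) ≃+ Additive (Abelianization (⊤ : Subgroup G)) :=
    MulEquiv.toAdditive (Subgroup.topEquiv (G := G)).symm.abelianizationCongr
  exact ⟨(e1.trans e).trans (hat0TopEquiv (k := ℤ) (CRep S G L)).toAddEquiv⟩

end Fermat.Agent.S55.G.Exist121.H964
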