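/-
S55 (Poitou–Tate), layer G, block G-EXIST (helper121), leaf EX-REC — helper964.

  `theorem recip_of_cm : G.PClassModuleSpec → RecipSpec`

`Recip.recip_of` with layer T's unconditional `classModuleOfCyclic`, `tateReciprocity` plugged in.
-/
import Fermat.Agent.S55.G.Exist121.H964.Recip
import Fermat.Agent.S55.T.All

set_option autoImplicit false

namespace Fermat.Agent.S55.G.Exist121.H964

open Fermat.Agent.S55 Fermat.Agent.S55.G

/-- **EX-REC**, only hypothesis: the class module property of layer G. -/
theorem recip_of_cm (hCM : PClassModuleSpec) : RecipSpec :=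
  recip_of hCM T.All.classModuleOfCyclic T.All.tateReciprocity

end Fermat.Agent.S55.G.Exist121.H964
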